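import Fermat.Agent.Petersson.Inner

/-!
# Normal operators for a positive definite sesquilinear pairing, and the pairing on cusp forms
-/

set_option autoImplicit false

noncomputable section

open UpperHalfPlane
open scoped MatrixGroups ModularForm ComplexConjugate

namespace Fermat.Agent.Petersson

section Abstract

variable {V : Type*} [AddCommGroup V] [Module ℂ V] (B : V →ₗ⋆[ℂ] V →ₗ[ℂ] ℂ)
  (hsymm : ∀ v w, B w v = conj (B v w)) (hpos : ∀ v, B v v = 0 → v = 0)
  {T S : Module.End ℂ V} (hcomm : Commute T S) (hadj : ∀ v w, B (T v) w = B v (S w))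

include hsymm hpos hcomm hadj

theorem apply_eq_zero_of_sq_eq_zero (μ : ℂ) {v : V}
    (h : (T - μ • 1) ((T - μ • 1) v) = 0) : (T - μ • 1) v = 0 := by
  set A : Module.End ℂ V := T - μ • 1
  set A' : Module.End ℂ V := S - conj μ • 1
  have hA : ∀ x y, B (A x) y = B x (A' y) := fun x y => by
    simp [A, A', hadj]
  have hA' : ∀ x y, B (A' x) y = B x (A y) := fun x y => by
    rw [hsymm y (A' x), ← hA, ← hsymm]
  have hAA : Commute A A' :=
    ((hcomm.sub_left ((Commute.one_left S).smul_left μ)).sub_right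
      ((Commute.one_right _).smul_right (conj μ)))
  set w := A v
  have hz : A' w = 0 := hpos _ <| by
    rw [hA', show A (A' w) = A' (A w) from LinearMap.congr_fun hAA.eq w, h, map_zero, map_zero]
  exact hpos _ <| by
    show B (A v) w = 0
    rw [hA, hz, map_zero]

theorem apply_eq_smul_of_mem_maxGenEigenspace (μ : ℂ) {v : V}
    (h : v ∈ T.maxGenEigenspace μ) : T v = μ • v := by
  obtain ⟨k, hk⟩ := (Module.End.mem_maxGenEigenspace T μ v).mp h
  have h1 : (T - μ • 1) v = 0 := by
    induction k with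
    | zero => simp only [pow_zero, Module.End.one_apply] at hk; rw [hk, map_zero]
    | succ k ih =>
      rcases k with _ | k
      · simpa using hk
      · refine ih ?_
        have e : ∀ (n : ℕ) (x : V), ((T - μ • (1 : Module.End ℂ V)) ^ (n + 1)) x =
            (T - μ • (1 : Module.End ℂ V)) (((T - μ • (1 : Module.End ℂ V)) ^ n) x) :=
          fun n x => by rw [pow_succ', Module.End.mul_apply]
        rw [e, e] at hk
        rw [e]
        exact apply_eq_zero_of_sq_eq_zero B hsymm hpos hcomm hadj μ hk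
  simpa [sub_eq_zero] using h1

end Abstract

/-- A commuting family of normal operators is simultaneously diagonalisable. -/
theorem iSup_iInf_eigenspace_eq_top {V : Type*} [AddCommGroup V] [Module ℂ V]
    [FiniteDimensional ℂ V] (B : V →ₗ⋆[ℂ] V →ₗ[ℂ] ℂ)
    (hsymm : ∀ v w, B w v = conj (B v w)) (hpos : ∀ v, B v v = 0 → v = 0) {ι : Type*}
    (T S : ι → Module.End ℂ V) (hT : ∀ i j, Commute (T i) (T j))
    (hTS : ∀ i, Commute (T i) (S i)) (hadj : ∀ i v w, B (T i v) w = B v (S i w)) :
    ⨆ χ : ι → ℂ, ⨅ i, (T i).eigenspace (χ i) = ⊤ := by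
  rw [eq_top_iff,
    ← Module.End.iSup_iInf_maxGenEigenspace_eq_top_of_iSup_maxGenEigenspace_eq_top_of_commute
      T (fun i j _ => hT i j) fun i => Module.End.iSup_maxGenEigenspace_eq_top (T i)]
  refine iSup_mono fun χ => iInf_mono fun i v hv => ?_
  rw [Module.End.mem_eigenspace_iff]
  exact apply_eq_smul_of_mem_maxGenEigenspace B hsymm hpos (hTS i) (hadj i) _ hv

variable {Γ : Subgroup SL(2, ℤ)} [Γ.FiniteIndex]

omit [Γ.FiniteIndex] in
theorem inv_cuspForm (f : CuspForm (Γ : Subgroup (GL (Fin 2) ℝ)) 2) : Inv Γ ⇑f :=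
  fun γ hγ => by
    rw [ModularForm.SL_slash]
    exact SlashInvariantFormClass.slash_action_eq f _ ⟨γ, hγ, rfl⟩

/-- The Petersson pairing on weight two cusp forms, computed at the auxiliary level `K`. -/
def pairing (K : Subgroup SL(2, ℤ)) [K.FiniteIndex] :
    CuspForm (Γ : Subgroup (GL (Fin 2) ℝ)) 2 →ₗ⋆[ℂ]
      CuspForm (Γ : Subgroup (GL (Fin 2) ℝ)) 2 →ₗ[ℂ] ℂ :=
  LinearMap.mk₂'ₛₗ (starRingEnd ℂ) (RingHom.id ℂ) (fun f g => ip K ⇑f ⇑g)
    (fun f f' g => by
      rw [FunLike.coe_add]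
      exact ip_add_left (bd_cuspForm f) (bd_cuspForm f') (bd_cuspForm g))
    (fun c f g => by rw [FunLike.coe_smul, ip_smul_left, smul_eq_mul])
    (fun f g g' => by
      rw [FunLike.coe_add]
      exact ip_add_right (bd_cuspForm f) (bd_cuspForm g) (bd_cuspForm g'))
    (fun c f g => by rw [FunLike.coe_smul, ip_smul_right, RingHom.id_apply, smul_eq_mul])

theorem pairing_apply (K : Subgroup SL(2, ℤ)) [K.FiniteIndex]
    (f g : CuspForm (Γ : Subgroup (GL (Fin 2) ℝ)) 2) : pairing K f g = ip K ⇑f ⇑g := rfl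

theorem pairing_symm (K : Subgroup SL(2, ℤ)) [K.FiniteIndex]
    (f g : CuspForm (Γ : Subgroup (GL (Fin 2) ℝ)) 2) : pairing K g f = conj (pairing K f g) :=
  ip_conj_symm _ _

theorem pairing_self_eq_zero (K : Subgroup SL(2, ℤ)) [K.FiniteIndex]
    (f : CuspForm (Γ : Subgroup (GL (Fin 2) ℝ)) 2) (h : pairing K f f = 0) : f = 0 :=
  DFunLike.coe_injective (by simpa using ip_self_eq_zero (bd_cuspForm f) h)

end Fermat.Agent.Petersson

end
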