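import Fermat.Agent.Petersson.Adjoint
import Fermat.Agent.Petersson.Semisimple
import Fermat.Agent.MFCore.Integral
import Fermat.Prelude.Def_CuspForm_HeckeAlgebra
import Fermat.Agent.Newform.Vanishing

/-!
# The operators `T_ℓ`, `ℓ ∤ N`, on `S₂(Γ₀(N))` are self-adjoint and diagonalisable
-/

set_option autoImplicit false

noncomputable section

open UpperHalfPlane CongruenceSubgroup
open scoped MatrixGroups ModularForm ComplexConjugate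

namespace Fermat.Agent.Petersson

open Fermat.Agent.Newform

variable {N ℓ : ℕ}

theorem Gamma_le_Gamma1 (N : ℕ) : Gamma N ≤ Gamma1 N := fun γ h => by
  rw [Gamma_mem] at h
  rw [Gamma1_mem]
  exact ⟨h.1, h.2.2.2, h.2.2.1⟩

theorem Gamma_le_Gamma0' (N : ℕ) : Gamma N ≤ Gamma0 N :=
  (Gamma_le_Gamma1 N).trans fun γ h => by
    rw [Gamma1_mem] at h
    exact Gamma0_mem.mpr h.2.2

theorem T_zpow_eq_zm (j : ℤ) :
    (((ModularGroup.T ^ j : SL(2, ℤ))) : GL (Fin 2) ℝ) = zm 1 j 0 1 := by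
  rw [SL_eq_zm]
  simp [ModularGroup.coe_T_zpow]

/-- `(1 j; 0 ℓ) = (1 0; 0 ℓ) T^j`. -/
theorem upper_eq (j : ℤ) [NeZero ℓ] :
    zm 1 j 0 ℓ = ((1 : SL(2, ℤ)) : GL (Fin 2) ℝ) * diagR ℓ *
      ((ModularGroup.T ^ j : SL(2, ℤ)) : GL (Fin 2) ℝ) := by
  rw [map_one, map_one, one_mul, T_zpow_eq_zm, diagR,
    zm_mul (by simpa using NeZero.ne ℓ) (by norm_num)]
  congr 1 <;> ring

/-- `(ℓ 0; 0 1) = δ (1 0; 0 ℓ) γ'` with `δ ∈ Γ₀(N)`, `γ' ∈ Γ₁(N)` and `ℓ δ₁₁ ≡ 1`. -/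
theorem exists_diag_eq [NeZero ℓ] (h : ℓ.Coprime N) :
    ∃ δ ∈ Gamma0 N, ∃ γ' ∈ Gamma1 N, (ℓ : ZMod N) * (δ 1 1 : ℤ) = 1 ∧
      zm ℓ 0 0 1 = (δ : GL (Fin 2) ℝ) * diagR ℓ * (γ' : GL (Fin 2) ℝ) := by
  obtain ⟨x, y, hxy⟩ := Nat.isCoprime_iff_coprime.mpr h
  have h1 : (ℓ : ℤ) * x - y * (-(N : ℤ)) = 1 := by linear_combination hxy
  have h2 : (x * (ℓ : ℤ)) * 1 - (-y) * (N : ℤ) = 1 := by linear_combination hxy
  have hℓ : (ℓ : ℤ) ≠ 0 := by exact_mod_cast NeZero.ne ℓ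
  have hx : (x : ZMod N) * ℓ = 1 := by
    have := congrArg (Int.cast : ℤ → ZMod N) hxy
    simpa using this
  refine ⟨slMk _ _ _ _ h1, ?_, slMk _ _ _ _ h2, ?_, ?_, ?_⟩
  · rw [mem_Gamma0_iff]; exact ⟨-1, by simp [slMk]⟩
  · rw [Gamma1_mem]
    refine ⟨?_, by simp [slMk], by simp [slMk]⟩
    simpa [slMk] using hx
  · simpa [slMk, mul_comm] using hx
  · have e : (ℓ : ℤ) * x - y * -(N : ℤ) ≠ 0 := by rw [h1]; exact one_ne_zero
    rw [← qm_slMk h1, ← qm_slMk h2, ← zm, ← zm, diagR,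
      zm_mul e (by simpa using hℓ)]
    rw [zm_mul (by
      have : (ℓ : ℤ) * x - y * -(N : ℤ) = 1 := h1
      have e2 : ((ℓ : ℤ) * 1 + y * 0) * (-(N : ℤ) * 0 + x * ℓ) -
          ((ℓ : ℤ) * 0 + y * ℓ) * (-(N : ℤ) * 1 + x * 0) =
            ℓ * ((ℓ : ℤ) * x - y * -(N : ℤ)) := by ring
      rw [e2, this, mul_one]; exact hℓ) (by rw [h2]; exact one_ne_zero)]
    congr 1
    · linear_combination -(ℓ : ℤ) * hxy
    · ring
    · ring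
    · linear_combination -hxy

theorem slash_diag_eq [NeZero ℓ] (f : ℍ → ℂ) :
    f ∣[(2 : ℤ)] (diagR ℓ)⁻¹ = f ∣[(2 : ℤ)] zm ℓ 0 0 1 := by
  have hℓ : (ℓ : ℤ) ≠ 0 := by exact_mod_cast NeZero.ne ℓ
  have e : zm ℓ 0 0 ℓ = zm ℓ 0 0 1 * diagR ℓ := by
    rw [diagR, zm_mul (by simpa using hℓ) (by simpa using hℓ)]
    congr 1 <;> ring
  have e' : zm ℓ 0 0 1 = zm ℓ 0 0 ℓ * (diagR ℓ)⁻¹ := by rw [e, mul_inv_cancel_right]
  have hs : f ∣[(2 : ℤ)] zm ℓ 0 0 ℓ = f := by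
    have := slash_qm_scalar 2 (l := (ℓ : ℚ)) (by exact_mod_cast NeZero.pos ℓ) f
    simpa [zm] using this
  rw [e', SlashAction.slash_mul, hs]

variable [NeZero N]

/-- The Petersson pairing on `S₂(Γ₀(N))`. -/
def pairing0 (N : ℕ) [NeZero N] :
    CuspForm (Gamma0 N) 2 →ₗ⋆[ℂ] CuspForm (Gamma0 N) 2 →ₗ[ℂ] ℂ :=
  pairing (Gamma N)

theorem pairing0_symm (f g : CuspForm (Gamma0 N) 2) : pairing0 N g f = conj (pairing0 N f g) :=
  pairing_symm _ _ _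

theorem pairing0_self_eq_zero (f : CuspForm (Gamma0 N) 2) (h : pairing0 N f f = 0) : f = 0 :=
  pairing_self_eq_zero _ f h

/-- **`T_ℓ` is self-adjoint.** -/
theorem pairing0_heckeTLin (hℓ : ℓ.Prime) (hℓN : ¬ ℓ ∣ N) (f g : CuspForm (Gamma0 N) 2) :
    pairing0 N (CuspForm.heckeTLin 2 hℓ hℓN f) g =
      pairing0 N f (CuspForm.heckeTLin 2 hℓ hℓN g) := by
  have : NeZero ℓ := ⟨hℓ.ne_zero⟩
  have hK : ∀ a b : CuspForm (Gamma0 N) 2, pairing0 N a b = ip (Gamma (N * ℓ)) ⇑a ⇑b := fun a b =>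
    (ip_eq_of_le (Gamma_mono (dvd_mul_right N ℓ)) (bd_cuspForm a) (bd_cuspForm b)
      ((inv_cuspForm a).mono (Gamma_le_Gamma0' N))
      ((inv_cuspForm b).mono (Gamma_le_Gamma0' N))).symm
  obtain ⟨δ, hδ, γ', hγ', -, e⟩ :=
    exists_diag_eq (N := N) ((Nat.Prime.coprime_iff_not_dvd hℓ).mpr hℓN)
  have hγ'0 : γ' ∈ Gamma0 N := Gamma0_mem.mpr ((Gamma1_mem N γ').mp hγ').2.2
  have hr : ∀ i : Option (Fin ℓ), ∃ γ ∈ Gamma0 N, ∃ γ'' ∈ Gamma0 N,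
      heckeReps ℓ i = (γ : GL (Fin 2) ℝ) * diagR ℓ * (γ'' : GL (Fin 2) ℝ)
    | none => ⟨δ, hδ, γ', hγ'0, e⟩
    | some j => ⟨1, one_mem _, _, T_zpow_mem_Gamma0 N (j : ℤ), upper_eq (j : ℤ)⟩
  rw [hK, hK, CuspForm.coe_heckeTLin_apply, CuspForm.coe_heckeTLin_apply,
    heckeT_eq_sum_heckeReps 2 hℓ.pos, heckeT_eq_sum_heckeReps 2 hℓ.pos,
    ip_sum_slash_right (Gamma_le_Gamma0' N) hr (bd_cuspForm f) (bd_cuspForm f) (bd_cuspForm g)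
      (inv_cuspForm f) (inv_cuspForm f) (inv_cuspForm g) hγ'0]
  rw [slash_diag_eq, e, SlashAction.slash_mul, SlashAction.slash_mul, ← ModularForm.SL_slash,
    ← ModularForm.SL_slash, inv_cuspForm f δ hδ]

/-- An index type for the good primes. -/
abbrev GoodPrime (N : ℕ) : Type := {ℓ : ℕ // ℓ.Prime ∧ ¬ ℓ ∣ N}

/-- `T_ℓ` for a good prime. -/
def goodT (i : GoodPrime N) : Module.End ℂ (CuspForm (Gamma0 N) 2) :=
  CuspForm.heckeTLin 2 i.2.1 i.2.2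

/-- **The good Hecke operators are simultaneously diagonalisable.** -/
theorem iSup_eigenspace_goodT :
    ⨆ χ : GoodPrime N → ℂ, ⨅ i, (goodT i).eigenspace (χ i) = ⊤ := by
  have := MFCore.finiteDimensional_cuspForm_Gamma0 N 2
  refine iSup_iInf_eigenspace_eq_top (pairing0 N) pairing0_symm pairing0_self_eq_zero goodT goodT
    (fun i j => ?_) (fun i => Commute.refl _) fun i v w => pairing0_heckeTLin i.2.1 i.2.2 v w
  exact CuspForm.heckeTLin_comm 2 i.2.1 i.2.2 j.2.1 j.2.2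

end Fermat.Agent.Petersson

end
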