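import Fermat.Agent.Petersson.Hecke
import Fermat.Agent.GammaH.Hecke

/-!
# `T_ℓ` and the diamond operators on `S₂(Γ_H(N))` are normal
-/

set_option autoImplicit false

noncomputable section

open UpperHalfPlane CongruenceSubgroup
open scoped MatrixGroups ModularForm ComplexConjugate OnePoint

namespace Fermat.Agent.Petersson

open Fermat.Agent.Newform Fermat.Agent.GammaH Fermat.Agent.Periods

variable {N ℓ : ℕ} [NeZero N] {H : Subgroup (ZMod N)ˣ}

/-- The Petersson pairing on `S₂(Γ_H(N))`. -/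
def pairingH (N : ℕ) [NeZero N] (H : Subgroup (ZMod N)ˣ) : S2 N H →ₗ⋆[ℂ] S2 N H →ₗ[ℂ] ℂ :=
  pairing (Gamma N)

theorem pairingH_symm (f g : S2 N H) : pairingH N H g f = conj (pairingH N H f g) :=
  pairing_symm _ _ _

theorem pairingH_self_eq_zero (f : S2 N H) (h : pairingH N H f f = 0) : f = 0 :=
  pairing_self_eq_zero _ f h

/-- The diamond operators are unitary. -/
theorem pairingH_diamond (a : (ZMod N)ˣ) (f g : S2 N H) :
    pairingH N H (diamond a f) (diamond a g) = pairingH N H f g := by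
  rw [pairingH, pairing_apply, pairing_apply, coe_diamond', coe_diamond']
  exact ip_slash_SL (bd_cuspForm f) (bd_cuspForm g)
    ((inv_cuspForm f).mono Gamma_le_GammaH) ((inv_cuspForm g).mono Gamma_le_GammaH) _

theorem pairingH_diamond_left (a : (ZMod N)ˣ) (f g : S2 N H) :
    pairingH N H (diamond a f) g = pairingH N H f (diamond a⁻¹ g) := by
  rw [← pairingH_diamond a f (diamond a⁻¹ g)]
  congr 1
  rw [← Module.End.mul_apply, ← diamondHom_apply, ← diamondHom_apply, ← map_mul, mul_inv_cancel,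
    map_one, Module.End.one_apply]

/-- **The adjoint of `T_ℓ` is `⟨ℓ⟩⁻¹ T_ℓ`.** -/
theorem pairingH_heckeT (hℓ : ℓ.Prime) (hℓN : ¬ ℓ ∣ N) (f g : S2 N H) :
    pairingH N H (GammaH.heckeT hℓ hℓN f) g =
      pairingH N H f (GammaH.heckeT hℓ hℓN (diamond (primeUnit hℓ hℓN)⁻¹ g)) := by
  have : NeZero ℓ := ⟨hℓ.ne_zero⟩
  set a := (primeUnit hℓ hℓN)⁻¹ with ha
  obtain ⟨δ, hδ, γ', hγ', hδ', e⟩ :=
    exists_diag_eq (N := N) ((Nat.Prime.coprime_iff_not_dvd hℓ).mpr hℓN)
  have hγ'H : γ' ∈ GammaH N H := Gamma1_le_GammaH hγ'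
  have hu : unitD N ⟨δ, hδ⟩ = a := by
    rw [ha, eq_inv_iff_mul_eq_one]
    ext
    simpa [coe_unitD, coe_primeUnit, mul_comm] using hδ'
  have hr : ∀ x : OnePoint (ZMod ℓ), ∃ γ ∈ GammaH N H, ∃ γ'' ∈ GammaH N H,
      repT hℓ hℓN x = (γ : GL (Fin 2) ℝ) * diagR ℓ * (γ'' : GL (Fin 2) ℝ) := by
    intro x
    induction x using OnePoint.rec with
    | infty =>
      refine ⟨(deltaOf N (primeUnit hℓ hℓN) : SL(2, ℤ)) * δ,
        mem_GammaH_of_unitD (deltaOf N (primeUnit hℓ hℓN) * ⟨δ, hδ⟩) ?_, γ', hγ'H, ?_⟩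
      · rw [map_mul, hu, unitD_deltaOf, ha, mul_inv_cancel]
        exact one_mem _
      · rw [repT_infty, toGL_mul]
        simp only [mul_assoc] at e ⊢
        rw [← e]
        refine congrArg₂ (· * ·) rfl (Units.ext ?_)
        rw [ModularForm.val_heckeDiagMatrix hℓ.ne_zero, zm,
          val_qm (by simpa using NeZero.ne (ℓ : ℚ))]
        simp
    | coe j =>
      refine ⟨1, one_mem _, ModularGroup.T ^ (j.val : ℤ),
        (GammaH N H).zpow_mem T_mem_GammaH _, ?_⟩
      rw [repT_coe, ← upper_eq]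
      refine Units.ext ?_
      rw [ModularForm.val_heckeMatrix hℓ.ne_zero, zm, val_qm (by simpa using NeZero.ne (ℓ : ℚ))]
      simp [-ZMod.natCast_val]
  have hK : ∀ p q : S2 N H, pairingH N H p q = ip (Gamma (N * ℓ)) ⇑p ⇑q := fun p q =>
    (ip_eq_of_le (Gamma_mono (dvd_mul_right N ℓ)) (bd_cuspForm p) (bd_cuspForm q)
      ((inv_cuspForm p).mono Gamma_le_GammaH) ((inv_cuspForm q).mono Gamma_le_GammaH)).symm
  rw [pairingH_symm g (GammaH.heckeT hℓ hℓN f),
    pairingH_symm (GammaH.heckeT hℓ hℓN (diamond a g)) f]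
  congr 1
  rw [hK, hK, coe_heckeT, coe_heckeT]
  refine ip_sum_slash_right Gamma_le_GammaH hr (bd_cuspForm g) (bd_cuspForm (diamond a g))
    (bd_cuspForm f) (inv_cuspForm g) (inv_cuspForm _) (inv_cuspForm f) hγ'H ?_
  rw [slash_diag_eq, e, SlashAction.slash_mul, SlashAction.slash_mul, ← ModularForm.SL_slash,
    ← ModularForm.SL_slash, ← hu, coe_diamond]

/-- The index type of the operators at good level. -/
abbrev GoodIndex (N : ℕ) : Type := GoodPrime N ⊕ (ZMod N)ˣ

/-- `T_ℓ` for good primes and all diamond operators. -/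
def goodOp : GoodIndex N → Module.End ℂ (S2 N H)
  | Sum.inl i => GammaH.heckeT i.2.1 i.2.2
  | Sum.inr a => diamond a

/-- Their adjoints. -/
def goodOpAdj : GoodIndex N → Module.End ℂ (S2 N H)
  | Sum.inl i => GammaH.heckeT i.2.1 i.2.2 * diamond (primeUnit i.2.1 i.2.2)⁻¹
  | Sum.inr a => diamond a⁻¹

theorem pairingH_goodOp (i : GoodIndex N) (f g : S2 N H) :
    pairingH N H (goodOp i f) g = pairingH N H f (goodOpAdj i g) := by
  rcases i with i | a
  · exact pairingH_heckeT i.2.1 i.2.2 f g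
  · exact pairingH_diamond_left a f g

theorem commute_goodOp_adj (i : GoodIndex N) :
    Commute (goodOp (H := H) i) (goodOpAdj i) := by
  rcases i with i | a
  · exact (Commute.refl _).mul_right (commute_diamond_heckeT i.2.1 i.2.2 _).symm
  · exact commute_diamond _ _

theorem commute_goodOp (i j : GoodIndex N) :
    Commute (goodOp (H := H) i) (goodOp j) := by
  rcases i with i | a <;> rcases j with j | b
  · exact GammaH.commute_heckeT i.2.1 i.2.2 j.2.1 j.2.2
  · exact (commute_diamond_heckeT i.2.1 i.2.2 b).symm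
  · exact commute_diamond_heckeT j.2.1 j.2.2 a
  · exact commute_diamond a b

/-- **`T_ℓ` (good `ℓ`) and the diamond operators are simultaneously diagonalisable.** -/
theorem iSup_eigenspace_goodOp :
    ⨆ χ : GoodIndex N → ℂ, ⨅ i, (goodOp (H := H) i).eigenspace (χ i) = ⊤ :=
  iSup_iInf_eigenspace_eq_top (pairingH N H) pairingH_symm pairingH_self_eq_zero goodOp goodOpAdj
    commute_goodOp commute_goodOp_adj pairingH_goodOp

end Fermat.Agent.Petersson

end
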