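import Fermat.Agent.Petersson.Inner
import Fermat.Agent.Newform.Cosets

/-!
# The adjoint of a Hecke operator for the Petersson pairing

For `Γ ⊇ Γ(L)` every sum of slashes by representatives in `Γ (1 0; 0 ℓ) Γ` has adjoint given by
the matrix `(ℓ 0; 0 1)`.
-/

set_option autoImplicit false

noncomputable section

open UpperHalfPlane CongruenceSubgroup
open scoped MatrixGroups ModularForm Manifold ComplexConjugate

namespace Fermat.Agent.Petersson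

open Fermat.Agent.Newform

/-- The matrix `(1 0; 0 ℓ)`. -/
def diagR (ℓ : ℕ) : GL (Fin 2) ℝ := zm 1 0 0 ℓ

variable {L ℓ : ℕ} [NeZero L] [NeZero ℓ]

theorem det_diagR_pos : 0 < (diagR ℓ).det.val := by
  rw [diagR, zm, val_det_qm (by simpa using (NeZero.ne (ℓ : ℚ)))]
  push_cast
  simpa using NeZero.pos ℓ

theorem det_diagR_inv_pos : 0 < (diagR ℓ)⁻¹.det.val := by
  rw [map_inv, Units.val_inv_eq_inv_val]
  exact inv_pos.mpr det_diagR_pos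

theorem toGL_injective {γ δ : SL(2, ℤ)} (h : (γ : GL (Fin 2) ℝ) = δ) : γ = δ :=
  Matrix.SpecialLinearGroup.mapGL_injective h

theorem Gamma_mono {a b : ℕ} (h : a ∣ b) : Gamma b ≤ Gamma a := fun γ hγ => by
  rw [Gamma_mem] at hγ ⊢
  obtain ⟨h1, h2, h3, h4⟩ := hγ
  exact ⟨by rw [← map_intCast (ZMod.castHom h (ZMod a)), h1, map_one],
    by simpa using congrArg (ZMod.castHom h (ZMod a)) h2,
    by simpa using congrArg (ZMod.castHom h (ZMod a)) h3,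
    by rw [← map_intCast (ZMod.castHom h (ZMod a)), h4, map_one]⟩

theorem toGL_mul (γ δ : SL(2, ℤ)) :
    ((γ * δ : SL(2, ℤ)) : GL (Fin 2) ℝ) = (γ : GL (Fin 2) ℝ) * δ :=
  map_mul (Matrix.SpecialLinearGroup.mapGL ℝ) γ δ

omit [NeZero L] in
/-- `(a b; c d) ↦ (a b/ℓ; cℓ d)` on `Γ(Lℓ)`. -/
theorem exists_conj_diagR (γ : Gamma (L * ℓ)) :
    ∃ δ : SL(2, ℤ), δ ∈ Gamma L ∧
      diagR ℓ * ((γ : SL(2, ℤ)) : GL (Fin 2) ℝ) = (δ : GL (Fin 2) ℝ) * diagR ℓ := by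
  obtain ⟨γ, hγ⟩ := γ
  rw [Gamma_mem] at hγ
  obtain ⟨h1, h2, h3, h4⟩ := hγ
  rw [ZMod.intCast_zmod_eq_zero_iff_dvd] at h2 h3
  push_cast at h2 h3
  obtain ⟨b, hb⟩ := (dvd_mul_left (ℓ : ℤ) L).trans h2
  have hd := det_SL γ
  have hdet : γ 0 0 * γ 1 1 - b * ((ℓ : ℤ) * γ 1 0) = 1 := by rw [hb] at hd; linarith
  refine ⟨slMk _ _ _ _ hdet, ?_, ?_⟩
  · rw [Gamma_mem]
    have hℓ : (ℓ : ℤ) ≠ 0 := by exact_mod_cast NeZero.ne ℓ
    refine ⟨?_, ?_, ?_, ?_⟩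
    · simpa [slMk] using congrArg (ZMod.castHom (dvd_mul_right L ℓ) (ZMod L)) h1
    · have : (L : ℤ) ∣ b := by
        obtain ⟨e, he⟩ := h2
        refine ⟨e, mul_left_cancel₀ hℓ ?_⟩
        rw [← hb, he]; ring
      simpa [slMk, ZMod.intCast_zmod_eq_zero_iff_dvd] using this
    · have : (L : ℤ) ∣ (ℓ : ℤ) * γ 1 0 := dvd_mul_of_dvd_right ((dvd_mul_right _ _).trans h3) _
      simpa [slMk, ZMod.intCast_zmod_eq_zero_iff_dvd] using
        (ZMod.intCast_zmod_eq_zero_iff_dvd _ L).mpr this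
    · simpa [slMk] using congrArg (ZMod.castHom (dvd_mul_right L ℓ) (ZMod L)) h4
  · have hℓ : (ℓ : ℤ) ≠ 0 := by exact_mod_cast NeZero.ne ℓ
    rw [SL_eq_zm, SL_eq_zm, diagR, zm_mul (by simpa using hℓ) (by rw [det_SL]; exact one_ne_zero)]
    rw [zm_mul (by simp [slMk]; linarith) (by simpa using hℓ)]
    congr 1 <;> simp [slMk, hb] <;> ring

/-- Conjugation by `(1 0; 0 ℓ)` as a homomorphism on `Γ(Lℓ)`. -/
def conjHom (L ℓ : ℕ) [NeZero L] [NeZero ℓ] : Gamma (L * ℓ) →* SL(2, ℤ) :=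
  MonoidHom.mk' (fun γ => (exists_conj_diagR γ).choose) fun γ γ' => by
    have key : ∀ {A x y a b c : GL (Fin 2) ℝ}, A * x = a * A → A * y = b * A →
        A * (x * y) = c * A → c = a * b := fun {A x y a b c} hx hy hxy => by
      refine mul_right_cancel (b := A) ?_
      rw [← hxy, ← mul_assoc, hx, mul_assoc, hy, mul_assoc]
    refine toGL_injective ?_
    rw [toGL_mul]
    exact key (exists_conj_diagR γ).choose_spec.2 (exists_conj_diagR γ').choose_spec.2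
      (by rw [← toGL_mul]; exact (exists_conj_diagR (γ * γ')).choose_spec.2)

theorem conjHom_spec (γ : Gamma (L * ℓ)) :
    diagR ℓ * ((γ : SL(2, ℤ)) : GL (Fin 2) ℝ) = (conjHom L ℓ γ : GL (Fin 2) ℝ) * diagR ℓ :=
  (exists_conj_diagR γ).choose_spec.2

theorem range_conjHom_le : (conjHom L ℓ).range ≤ Gamma L := by
  rintro _ ⟨γ, rfl⟩
  exact (exists_conj_diagR γ).choose_spec.1

theorem conjHom_injective : Function.Injective (conjHom L ℓ) := fun γ γ' h => by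
  refine Subtype.ext (toGL_injective (mul_left_cancel (a := diagR ℓ) ?_))
  rw [conjHom_spec, conjHom_spec, h]

omit [NeZero L] in
theorem exists_conj_diagR_inv {δ : SL(2, ℤ)} (hδ : δ ∈ Gamma (L * ℓ)) :
    ∃ γ ∈ Gamma L, (δ ∈ Gamma (L * ℓ * ℓ) → γ ∈ Gamma (L * ℓ)) ∧
      diagR ℓ * (γ : GL (Fin 2) ℝ) = (δ : GL (Fin 2) ℝ) * diagR ℓ := by
  rw [Gamma_mem] at hδ
  obtain ⟨h1, h2, h3, h4⟩ := hδ
  rw [ZMod.intCast_zmod_eq_zero_iff_dvd] at h2 h3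
  push_cast at h2 h3
  obtain ⟨c, hc⟩ := (dvd_mul_left (ℓ : ℤ) L).trans h3
  have hd := det_SL δ
  have hdet : δ 0 0 * δ 1 1 - ((ℓ : ℤ) * δ 0 1) * c = 1 := by rw [hc] at hd; linarith
  have hℓ : (ℓ : ℤ) ≠ 0 := by exact_mod_cast NeZero.ne ℓ
  refine ⟨slMk _ _ _ _ hdet, ?_, ?_, ?_⟩
  · rw [Gamma_mem]
    refine ⟨?_, ?_, ?_, ?_⟩
    · simpa [slMk] using congrArg (ZMod.castHom (dvd_mul_right L ℓ) (ZMod L)) h1
    · have : (L : ℤ) ∣ (ℓ : ℤ) * δ 0 1 := dvd_mul_of_dvd_right ((dvd_mul_right _ _).trans h2) _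
      simpa [slMk] using (ZMod.intCast_zmod_eq_zero_iff_dvd _ L).mpr this
    · have : (L : ℤ) ∣ c := by
        obtain ⟨e, he⟩ := h3
        refine ⟨e, mul_left_cancel₀ hℓ ?_⟩
        rw [← hc, he]; ring
      simpa [slMk] using (ZMod.intCast_zmod_eq_zero_iff_dvd _ L).mpr this
    · simpa [slMk] using congrArg (ZMod.castHom (dvd_mul_right L ℓ) (ZMod L)) h4
  · intro hδ'
    rw [Gamma_mem] at hδ' ⊢
    obtain ⟨k1, k2, k3, k4⟩ := hδ'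
    rw [ZMod.intCast_zmod_eq_zero_iff_dvd] at k3
    push_cast at k3
    refine ⟨?_, ?_, ?_, ?_⟩
    · simpa [slMk] using congrArg (ZMod.castHom (dvd_mul_right (L * ℓ) ℓ) (ZMod (L * ℓ))) k1
    · have : ((L * ℓ : ℕ) : ℤ) ∣ (ℓ : ℤ) * δ 0 1 := by
        push_cast; exact dvd_mul_of_dvd_right h2 _
      simpa [slMk] using (ZMod.intCast_zmod_eq_zero_iff_dvd _ (L * ℓ)).mpr this
    · have : ((L * ℓ : ℕ) : ℤ) ∣ c := by
        obtain ⟨e, he⟩ := k3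
        refine ⟨e, mul_left_cancel₀ hℓ ?_⟩
        rw [← hc, he]; push_cast; ring
      simpa [slMk] using (ZMod.intCast_zmod_eq_zero_iff_dvd _ (L * ℓ)).mpr this
    · simpa [slMk] using congrArg (ZMod.castHom (dvd_mul_right (L * ℓ) ℓ) (ZMod (L * ℓ))) k4
  · rw [SL_eq_zm, SL_eq_zm, diagR, zm_mul (by simpa using hℓ) (by simp [slMk]; linarith)]
    rw [zm_mul (by rw [det_SL]; exact one_ne_zero) (by simpa using hℓ)]
    congr 1 <;> simp [slMk, hc] <;> ring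

theorem Gamma_sq_le_range : Gamma (L * ℓ * ℓ) ≤ (conjHom L ℓ).range := by
  intro δ hδ
  obtain ⟨γ, -, hγ, e⟩ :=
    exists_conj_diagR_inv (Gamma_mono (dvd_mul_right (L * ℓ) ℓ) hδ)
  exact ⟨⟨γ, hγ hδ⟩, toGL_injective (mul_right_cancel ((conjHom_spec _).symm.trans e))⟩

instance finiteIndex_range_conjHom : (conjHom L ℓ).range.FiniteIndex :=
  Subgroup.finiteIndex_of_le Gamma_sq_le_range

omit [NeZero L] in
theorem inv_slash_diagR {f : ℍ → ℂ} (hf : Inv (Gamma L) f) :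
    Inv (Gamma (L * ℓ)) (f ∣[(2 : ℤ)] diagR ℓ) := fun γ hγ => by
  obtain ⟨δ, hδ, e⟩ := exists_conj_diagR (L := L) ⟨γ, hγ⟩
  rw [ModularForm.SL_slash, ← SlashAction.slash_mul, e, SlashAction.slash_mul,
    ← ModularForm.SL_slash, hf δ hδ]

omit [NeZero L] in
theorem inv_slash_diagR_inv {f : ℍ → ℂ} (hf : Inv (Gamma L) f) :
    Inv (Gamma (L * ℓ)) (f ∣[(2 : ℤ)] (diagR ℓ)⁻¹) := fun δ hδ => by
  obtain ⟨γ, hγ, -, e⟩ := exists_conj_diagR_inv (L := L) hδ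
  have e' : (diagR ℓ)⁻¹ * (δ : GL (Fin 2) ℝ) = (γ : GL (Fin 2) ℝ) * (diagR ℓ)⁻¹ := by
    rw [eq_mul_inv_iff_mul_eq, mul_assoc, ← e, inv_mul_cancel_left]
  rw [ModularForm.SL_slash, ← SlashAction.slash_mul, e', SlashAction.slash_mul,
    ← ModularForm.SL_slash, hf γ hγ]

variable {f g : ℍ → ℂ}

/-- Moving `(1 0; 0 ℓ)` across the pairing. -/
theorem ip_slash_diagR (hf : Bd f) (hg : Bd g) (hfi : Inv (Gamma L) f) (hgi : Inv (Gamma L) g) :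
    ip (Gamma (L * ℓ)) (f ∣[(2 : ℤ)] diagR ℓ) g =
      ip (Gamma (L * ℓ)) f (g ∣[(2 : ℤ)] (diagR ℓ)⁻¹) := by
  set g' := g ∣[(2 : ℤ)] (diagR ℓ)⁻¹ with hg'
  have hg'b : Bd g' := hg.slash det_diagR_inv_pos
  have hle : Gamma (L * ℓ) ≤ Gamma L := Gamma_mono (dvd_mul_right L ℓ)
  obtain ⟨C, hC⟩ := hf.exists_petersson_le hg'b
  have hfun : petersson 2 (f ∣[(2 : ℤ)] diagR ℓ) g =
      fun τ => petersson 2 f g' (diagR ℓ • τ) :=
    funext fun τ => petersson_slash_left det_diagR_pos f g τ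
  have hgR : Inv (conjHom L ℓ).range g' := by
    rintro _ ⟨γ, rfl⟩
    have e' : (diagR ℓ)⁻¹ * (conjHom L ℓ γ : GL (Fin 2) ℝ) =
        ((γ : SL(2, ℤ)) : GL (Fin 2) ℝ) * (diagR ℓ)⁻¹ := by
      rw [eq_mul_inv_iff_mul_eq, mul_assoc, ← conjHom_spec, inv_mul_cancel_left]
    rw [hg', ModularForm.SL_slash, ← SlashAction.slash_mul, e', SlashAction.slash_mul,
      ← ModularForm.SL_slash, hgi _ (hle γ.2)]
  have hfR : Inv (conjHom L ℓ).range f := hfi.mono range_conjHom_le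
  rw [ip, hfun, avg_comp_smul _ (conjHom L ℓ).range (diagR ℓ)
      (MonoidHom.ofInjective conjHom_injective).toEquiv ?_ (hf.continuous_petersson hg'b) hC
      (petersson_invariant hfR hgR)]
  · change ip (conjHom L ℓ).range f g' = ip (Gamma (L * ℓ)) f g'
    rw [← ip_eq_of_le Gamma_sq_le_range hf hg'b hfR hgR,
      ip_eq_of_le (Gamma_mono (dvd_mul_right (L * ℓ) ℓ)) hf hg'b (hfi.mono hle)
        (inv_slash_diagR_inv hgi)]
  · intro γ τ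
    show diagR ℓ • (((γ : SL(2, ℤ)) : GL (Fin 2) ℝ) • τ) =
      ((conjHom L ℓ γ : SL(2, ℤ)) : GL (Fin 2) ℝ) • (diagR ℓ • τ)
    rw [← mul_smul, conjHom_spec, mul_smul]

/-- Moving an element of `SL₂(ℤ)` across the pairing. -/
theorem ip_slash_SL {M : ℕ} [NeZero M] (hf : Bd f) (hg : Bd g) (hfi : Inv (Gamma M) f)
    (hgi : Inv (Gamma M) g) (γ : SL(2, ℤ)) :
    ip (Gamma M) (f ∣[(2 : ℤ)] γ) (g ∣[(2 : ℤ)] γ) = ip (Gamma M) f g := by
  obtain ⟨C, hC⟩ := hf.exists_petersson_le hg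
  rw [ip, ip, show petersson 2 (f ∣[(2 : ℤ)] γ) (g ∣[(2 : ℤ)] γ) =
    fun τ => petersson 2 f g ((γ : GL (Fin 2) ℝ) • τ) from
    funext fun τ => petersson_slash_SL 2 f g γ τ]
  refine avg_comp_smul _ _ _
    { toFun := fun δ => ⟨γ * δ * γ⁻¹, (Gamma_normal M).conj_mem _ δ.2 γ⟩
      invFun := fun δ => ⟨γ⁻¹ * δ * γ, by
        simpa using (Gamma_normal M).conj_mem _ δ.2 γ⁻¹⟩
      left_inv := fun δ => by ext1; simp [mul_assoc]
      right_inv := fun δ => by ext1; simp [mul_assoc] }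
    (fun δ τ => ?_) (hf.continuous_petersson hg) hC (petersson_invariant hfi hgi)
  show γ • ((δ : SL(2, ℤ)) • τ) = (γ * δ * γ⁻¹) • (γ • τ)
  simp [mul_smul]

section Sum

variable {Γ : Subgroup SL(2, ℤ)} (hΓ : Gamma L ≤ Γ) {ι : Type*} [Fintype ι]
  {r : ι → GL (Fin 2) ℝ}
  (hr : ∀ i, ∃ γ ∈ Γ, ∃ γ' ∈ Γ,
    r i = (γ : GL (Fin 2) ℝ) * diagR ℓ * (γ' : GL (Fin 2) ℝ))

include hr in
omit [Fintype ι] in
theorem bd_slash_rep (hf : Bd f) (i : ι) : Bd (f ∣[(2 : ℤ)] r i) := by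
  obtain ⟨γ, -, γ', -, e⟩ := hr i
  rw [e, SlashAction.slash_mul, SlashAction.slash_mul, ← ModularForm.SL_slash,
    ← ModularForm.SL_slash]
  exact ((hf.slash_SL γ).slash det_diagR_pos).slash_SL γ'

include hΓ hr in
theorem ip_sum_slash (hf : Bd f) (hg : Bd g) (hfi : Inv Γ f) (hgi : Inv Γ g) :
    ip (Gamma (L * ℓ)) (∑ i, f ∣[(2 : ℤ)] r i) g =
      (Fintype.card ι : ℂ) * ip (Gamma (L * ℓ)) (f ∣[(2 : ℤ)] diagR ℓ) g := by
  rw [ip_sum_left _ (fun i _ => bd_slash_rep hr hf i) hg, Finset.sum_congr rfl fun i _ => ?_,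
    Finset.sum_const, Finset.card_univ, nsmul_eq_mul]
  obtain ⟨γ, hγ, γ', hγ', e⟩ := hr i
  have h1 : f ∣[(2 : ℤ)] r i = (f ∣[(2 : ℤ)] diagR ℓ) ∣[(2 : ℤ)] γ' := by
    rw [e, SlashAction.slash_mul, SlashAction.slash_mul, ← ModularForm.SL_slash,
      ← ModularForm.SL_slash, hfi γ hγ]
  rw [h1]
  conv_lhs => rw [show g = g ∣[(2 : ℤ)] γ' from (hgi γ' hγ').symm]
  exact ip_slash_SL (hf.slash det_diagR_pos) hg (inv_slash_diagR (hfi.mono hΓ))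
    ((hgi.mono hΓ).mono (Gamma_mono (dvd_mul_right L ℓ))) γ'

include hΓ hr in
/-- **Adjointness**: if `f | (1 0; 0 ℓ)⁻¹ = f' | (1 0; 0 ℓ) | γ'`, the adjoint at `f` is the sum
applied to `f'`. -/
theorem ip_sum_slash_right {f' : ℍ → ℂ} (hf : Bd f) (hf' : Bd f') (hg : Bd g) (hfi : Inv Γ f)
    (hfi' : Inv Γ f') (hgi : Inv Γ g) {γ' : SL(2, ℤ)} (hγ' : γ' ∈ Γ)
    (e : f ∣[(2 : ℤ)] (diagR ℓ)⁻¹ = (f' ∣[(2 : ℤ)] diagR ℓ) ∣[(2 : ℤ)] γ') :
    ip (Gamma (L * ℓ)) f (∑ i, g ∣[(2 : ℤ)] r i) =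
      ip (Gamma (L * ℓ)) (∑ i, f' ∣[(2 : ℤ)] r i) g := by
  rw [ip_conj_symm, ip_sum_slash hΓ hr hg hf hgi hfi, map_mul, Complex.conj_natCast,
    ← ip_conj_symm, ip_sum_slash hΓ hr hf' hg hfi' hgi]
  congr 1
  rw [ip_conj_symm (g ∣[(2 : ℤ)] diagR ℓ), ip_slash_diagR hg hf (hgi.mono hΓ) (hfi.mono hΓ),
    ← ip_conj_symm, e]
  conv_lhs => rw [show g = g ∣[(2 : ℤ)] γ' from (hgi γ' hγ').symm]
  exact ip_slash_SL (hf'.slash det_diagR_pos) hg (inv_slash_diagR (hfi'.mono hΓ))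
    ((hgi.mono hΓ).mono (Gamma_mono (dvd_mul_right L ℓ))) γ'

end Sum

end Fermat.Agent.Petersson

end
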