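import Mathlib

/-!
# The invariant mean over finite index subgroups of `SL₂(ℤ)`

`avg Γ F` is the integral over the standard fundamental domain of the average of the translates of
a `Γ`-invariant function `F`. It does not change under shrinking `Γ`, nor under composing `F` with
the action of a matrix conjugating `Γ` into another subgroup of finite index.
-/

set_option autoImplicit false

noncomputable section

open MeasureTheory UpperHalfPlane ModularGroup
open scoped MatrixGroups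

namespace Fermat.Agent.Petersson

instance countableSL : Countable SL(2, ℤ) :=
  Function.Injective.countable (f := fun (g : SL(2, ℤ)) (i j : Fin 2) => g i j) fun _ _ h =>
    Matrix.SpecialLinearGroup.ext _ _ fun i j => congrFun (congrFun h i) j

theorem measurePreserving_GL (g : GL (Fin 2) ℝ) :
    MeasurePreserving (fun τ : ℍ => g • τ) volume volume :=
  measurePreserving_smul g volume

theorem measurePreserving_SL (γ : SL(2, ℤ)) :
    MeasurePreserving (fun τ : ℍ => γ • τ) volume volume :=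
  measurePreserving_smul (γ : GL (Fin 2) ℝ) volume

theorem measurableEmbedding_GL (g : GL (Fin 2) ℝ) :
    MeasurableEmbedding (fun τ : ℍ => g • τ) :=
  (Homeomorph.smul g).measurableEmbedding

theorem measurableEmbedding_SL (γ : SL(2, ℤ)) :
    MeasurableEmbedding (fun τ : ℍ => γ • τ) :=
  measurableEmbedding_GL (γ : GL (Fin 2) ℝ)

theorem measurable_SL (γ : SL(2, ℤ)) : Measurable (fun τ : ℍ => γ • τ) :=
  (measurableEmbedding_SL γ).measurable

theorem integral_comp_SL {E : Type*} [NormedAddCommGroup E] [NormedSpace ℝ E] (γ : SL(2, ℤ))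
    (F : ℍ → E) : ∫ τ, F (γ • τ) = ∫ τ, F τ :=
  (measurePreserving_SL γ).integral_comp (measurableEmbedding_SL γ) F

theorem integrable_comp_SL {E : Type*} [NormedAddCommGroup E] (γ : SL(2, ℤ)) {F : ℍ → E}
    (h : Integrable F) : Integrable fun τ => F (γ • τ) :=
  (measurePreserving_SL γ).integrable_comp_of_integrable h

/-- A set of the upper half plane whose image in `ℂ` is Lebesgue null is null. -/
theorem volume_eq_zero_of_image_null {s : Set ℍ}
    (h : (volume : Measure ℂ) (UpperHalfPlane.coe '' s) = 0) : (volume : Measure ℍ) s = 0 := by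
  rw [UpperHalfPlane.volume_eq_lintegral]
  exact setLIntegral_measure_zero _ _ h

theorem volume_re_eq (c : ℝ) : (volume : Measure ℂ) {z : ℂ | z.re = c} = 0 := by
  have : {z : ℂ | z.re = c} = Complex.measurableEquivRealProd ⁻¹' ({c} ×ˢ Set.univ) := by
    ext z; simp [Complex.measurableEquivRealProd]
  rw [this, Complex.volume_preserving_equiv_real_prod.measure_preimage
    (MeasurableSet.prod (measurableSet_singleton c) MeasurableSet.univ).nullMeasurableSet,
    Measure.volume_eq_prod, Measure.prod_prod]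
  simp

theorem volume_fd_diff_fdo : (volume : Measure ℍ) (fd \ fdo) = 0 := by
  refine volume_eq_zero_of_image_null (measure_mono_null (t := Metric.sphere (0 : ℂ) 1 ∪
    ({z : ℂ | z.re = 1 / 2} ∪ {z : ℂ | z.re = -(1 / 2)})) ?_ ?_)
  · rintro _ ⟨τ, ⟨⟨h1, h2⟩, hn⟩, rfl⟩
    rcases h1.lt_or_eq with h1 | h1
    · rcases h2.lt_or_eq with h2 | h2
      · exact absurd ⟨h1, h2⟩ hn
      · refine Or.inr ?_
        rcases abs_eq (by norm_num : (0 : ℝ) ≤ 1 / 2) |>.mp h2 with h | h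
        · exact Or.inl h
        · exact Or.inr h
    · refine Or.inl ?_
      rw [mem_sphere_zero_iff_norm, Complex.norm_def, ← h1, Real.sqrt_one]
  · exact measure_union_null (Measure.addHaar_sphere volume 0 1)
      (measure_union_null (volume_re_eq _) (volume_re_eq _))

theorem volume_fdo_lt_top : (volume : Measure ℍ) fdo < ⊤ := by
  set h : ℝ → ℝ := fun y => y ^ (-2 : ℝ)
  have hsub : UpperHalfPlane.coe '' fdo ⊆
      Complex.measurableEquivRealProd ⁻¹'
        (Set.Icc (-(1 / 2) : ℝ) (1 / 2) ×ˢ Set.Ioi (1 / 2 : ℝ)) := by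
    rintro _ ⟨τ, hτ, rfl⟩
    have h3 := three_lt_four_mul_im_sq_of_mem_fdo hτ
    have h4 := hτ.2
    rw [abs_lt] at h4
    refine ⟨⟨h4.1.le, h4.2.le⟩, ?_⟩
    show (1 / 2 : ℝ) < τ.im
    nlinarith [τ.im_pos]
  rw [UpperHalfPlane.volume_eq_lintegral]
  refine lt_of_le_of_lt (lintegral_mono_set hsub) ?_
  refine lt_of_eq_of_lt (Complex.volume_preserving_equiv_real_prod.setLIntegral_comp_preimage_emb
      Complex.measurableEquivRealProd.measurableEmbedding
      (fun p : ℝ × ℝ => (((1 / ‖p.2‖₊) ^ 2 : NNReal) : ENNReal)) _) ?_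
  rw [
    Measure.volume_eq_prod, ← Measure.prod_restrict,
    lintegral_prod _ (Measurable.aemeasurable (by fun_prop))]
  simp only [lintegral_const, Measure.restrict_apply MeasurableSet.univ, Set.univ_inter,
    Real.volume_Icc]
  refine ENNReal.mul_lt_top ?_ ENNReal.ofReal_lt_top
  have hint : IntegrableOn h (Set.Ioi (1 / 2 : ℝ)) :=
    integrableOn_Ioi_rpow_of_lt (by norm_num) (by norm_num)
  refine lt_of_eq_of_lt ?_ hint.hasFiniteIntegral
  refine setLIntegral_congr_fun measurableSet_Ioi fun y hy => ?_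
  have hy0 : (0 : ℝ) < y := lt_trans (by norm_num) hy
  show (((1 / ‖y‖₊) ^ 2 : NNReal) : ENNReal) = ‖h y‖ₑ
  rw [← ofReal_norm, ← ENNReal.ofReal_coe_nnreal, Real.norm_eq_abs,
    abs_of_pos (Real.rpow_pos_of_pos hy0 _)]
  congr 1
  push_cast
  rw [show (-2 : ℝ) = -((2 : ℕ) : ℝ) by norm_num, Real.rpow_neg hy0.le, Real.rpow_natCast,
    Real.norm_eq_abs, abs_of_pos hy0, one_div, inv_pow]

/-- A nonempty part of the upper half plane open in it has positive volume. -/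
theorem volume_pos_of_isOpen {U : Set ℍ} (hU : IsOpen U) (hne : U.Nonempty) :
    0 < (volume : Measure ℍ) U := by
  rw [UpperHalfPlane.volume_eq_lintegral, setLIntegral_pos_iff (by fun_prop)]
  have hop : IsOpen (UpperHalfPlane.coe '' U) := isOpenEmbedding_coe.isOpenMap U hU
  refine lt_of_lt_of_le (hop.measure_pos volume (hne.image _)) (measure_mono ?_)
  rintro _ ⟨τ, hτ, rfl⟩
  refine ⟨?_, τ, hτ, rfl⟩
  simp [Function.mem_support, τ.im_ne_zero]

/-! ### Weights -/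

/-- A weight: nonnegative, integrable, with orbit sums equal to `2` almost everywhere. -/
structure IsDom (Γ : Subgroup SL(2, ℤ)) (φ : ℍ → ℝ) : Prop where
  meas : Measurable φ
  nonneg : ∀ τ, 0 ≤ φ τ
  integrable : Integrable φ
  sum_eq : ∀ᵐ τ, HasSum (fun γ : Γ => φ ((γ : SL(2, ℤ)) • τ)) 2

/-- `fdo`, as a function. -/
def fdInd : ℍ → ℝ := fdo.indicator fun _ => 1

theorem fdInd_nonneg (τ : ℍ) : 0 ≤ fdInd τ :=
  Set.indicator_nonneg (fun _ _ => zero_le_one) τ

theorem measurable_fdInd : Measurable fdInd :=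
  measurable_const.indicator isOpen_fdo.measurableSet

theorem integrable_fdInd : Integrable fdInd :=
  (integrable_indicator_iff isOpen_fdo.measurableSet).mpr
    (integrableOn_const volume_fdo_lt_top.ne)

theorem ae_orbit_avoids :
    ∀ᵐ τ : ℍ, ∀ γ : SL(2, ℤ), γ • τ ∉ fd \ fdo := by
  rw [ae_all_iff]
  intro γ
  rw [ae_iff]
  simp only [not_not]
  exact (measurePreserving_SL γ).preimage_null volume_fd_diff_fdo

theorem neg_one_ne_one_SL : (-1 : SL(2, ℤ)) ≠ 1 := fun h => by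
  have := congrArg (fun g : SL(2, ℤ) => g 0 0) h
  simp at this

theorem hasSum_fdInd {τ : ℍ} (hτ : ∀ γ : SL(2, ℤ), γ • τ ∉ fd \ fdo) :
    HasSum (fun γ : SL(2, ℤ) => fdInd (γ • τ)) 2 := by
  obtain ⟨g, hg⟩ := exists_smul_mem_fd τ
  have hgo : g • τ ∈ fdo := by_contra fun h => hτ g ⟨hg, h⟩
  have hne : g ≠ -g := fun h => by
    refine neg_one_ne_one_SL ?_
    have := congrArg (fun x => x * g⁻¹) h
    simpa using this.symm
  have hsupp : ∀ γ ∉ ({g, -g} : Finset SL(2, ℤ)), fdInd (γ • τ) = 0 := by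
    intro γ hγ
    refine Set.indicator_of_notMem (fun h => hγ ?_) _
    have h' : (γ * g⁻¹) • (g • τ) ∈ fdo := by rwa [mul_smul, inv_smul_smul]
    rcases eq_one_or_neg_one_of_mem_fdo_mem_fdo hgo h' with h1 | h1
    · simp [mul_inv_eq_one.mp h1]
    · simp [mul_inv_eq_iff_eq_mul.mp h1]
  have := hasSum_sum_of_ne_finset_zero (s := {g, -g}) (L := SummationFilter.unconditional _) hsupp
  rwa [Finset.sum_pair hne, show (-g) • τ = g • τ from by simp, fdInd,
    Set.indicator_of_mem hgo, one_add_one_eq_two] at this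

variable (Γ : Subgroup SL(2, ℤ))

/-- The trace of the indicator of `fdo`: a weight for `Γ`. -/
def dom [Γ.FiniteIndex] (τ : ℍ) : ℝ :=
  letI := Fintype.ofFinite (SL(2, ℤ) ⧸ Γ)
  ∑ q : SL(2, ℤ) ⧸ Γ, fdInd (q.out • τ)

/-- `SL₂(ℤ)` as a union of left cosets. -/
def cosetEquiv : (SL(2, ℤ) ⧸ Γ) × Γ ≃ SL(2, ℤ) where
  toFun p := p.1.out * p.2
  invFun g := ((g : SL(2, ℤ) ⧸ Γ), ⟨((g : SL(2, ℤ) ⧸ Γ).out)⁻¹ * g,
    QuotientGroup.eq.mp (QuotientGroup.out_eq' _)⟩)
  left_inv p := by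
    obtain ⟨q, γ, hγ⟩ := p
    have hq : ((q.out * γ : SL(2, ℤ)) : SL(2, ℤ) ⧸ Γ) = q := by
      rw [QuotientGroup.mk_mul_of_mem _ hγ, QuotientGroup.out_eq']
    ext1
    · exact hq
    · ext1
      simp only [hq, inv_mul_cancel_left]
  right_inv g := by simp

theorem isDom_dom [Γ.FiniteIndex] : IsDom Γ (dom Γ) := by
  let := Fintype.ofFinite (SL(2, ℤ) ⧸ Γ)
  refine ⟨Finset.measurable_sum _ fun q _ => measurable_fdInd.comp (measurable_SL q.out),
    fun τ => Finset.sum_nonneg fun q _ => fdInd_nonneg _,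
    integrable_finsetSum _ fun q _ => integrable_comp_SL q.out integrable_fdInd, ?_⟩
  filter_upwards [ae_orbit_avoids] with τ hτ
  have h := (cosetEquiv Γ).hasSum_iff.mpr (hasSum_fdInd hτ)
  have hq : ∀ q : SL(2, ℤ) ⧸ Γ, Summable fun γ : Γ => fdInd ((q.out * (γ : SL(2, ℤ))) • τ) :=
    fun q => h.summable.prod_factor q
  have h2 := h.prod_fiberwise fun q => (hq q).hasSum
  have h3 := hasSum_sum (s := (Finset.univ : Finset (SL(2, ℤ) ⧸ Γ))) fun q _ => (hq q).hasSum
  rw [(hasSum_fintype _).unique h2] at h3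
  simpa [dom, mul_smul] using h3

theorem integral_dom_mul [Γ.FiniteIndex] [Fintype (SL(2, ℤ) ⧸ Γ)] {F : ℍ → ℂ} (hF : Continuous F)
    {C : ℝ} (hC : ∀ τ, ‖F τ‖ ≤ C) :
    ∫ τ, (dom Γ τ : ℂ) * F τ =
      ∑ q : SL(2, ℤ) ⧸ Γ, ∫ τ, (fdInd τ : ℂ) * F (q.out⁻¹ • τ) := by
  have hint : ∀ g : SL(2, ℤ), Integrable fun τ => (fdInd (g • τ) : ℂ) * F τ := fun g =>
    ((integrable_comp_SL g integrable_fdInd).ofReal).mul_bdd hF.aestronglyMeasurable
      (Filter.Eventually.of_forall hC)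
  have : ∀ τ, (dom Γ τ : ℂ) * F τ =
      ∑ q : SL(2, ℤ) ⧸ Γ, (fdInd (q.out • τ) : ℂ) * F τ := fun τ => by
    rw [← Finset.sum_mul, ← Complex.ofReal_sum]
    congr 2
    exact Finset.sum_congr (Finset.ext fun _ => by simp) fun _ _ => rfl
  simp only [this]
  rw [integral_finsetSum _ fun q _ => hint q.out]
  refine Finset.sum_congr rfl fun q _ => ?_
  rw [← integral_comp_SL q.out⁻¹ (fun τ => (fdInd (q.out • τ) : ℂ) * F τ)]
  simp only [smul_inv_smul]

/-- Unfolding: two weights of `Γ` give the same integral against invariant functions. -/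
theorem IsDom.integral_eq {φ ψ : ℍ → ℝ} (hφ : IsDom Γ φ) (hψ : IsDom Γ ψ) {F : ℍ → ℂ}
    (hF : Continuous F) {C : ℝ} (hC : ∀ τ, ‖F τ‖ ≤ C)
    (hinv : ∀ γ ∈ Γ, ∀ τ, F (γ • τ) = F τ) :
    ∫ τ, (φ τ : ℂ) * F τ = ∫ τ, (ψ τ : ℂ) * F τ := by
  have key : ∀ {a b : ℍ → ℝ}, IsDom Γ a → IsDom Γ b →
      HasSum (fun γ : Γ => ∫ τ, ((a τ : ℂ) * (b ((γ : SL(2, ℤ)) • τ) : ℂ)) * F τ)
        (∫ τ, 2 * ((a τ : ℂ) * F τ)) := by
    intro a b ha hb
    refine hasSum_integral_of_dominated_convergence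
      (fun (γ : Γ) τ => C * (a τ * b ((γ : SL(2, ℤ)) • τ))) (fun γ => ?_) (fun γ => ?_) ?_ ?_ ?_
    · have := ha.meas; have := hb.meas.comp (measurable_SL (γ : SL(2, ℤ)))
      exact (((Complex.measurable_ofReal.comp ha.meas).mul
        (Complex.measurable_ofReal.comp this)).mul hF.measurable).aestronglyMeasurable
    · refine Filter.Eventually.of_forall fun τ => ?_
      rw [norm_mul, norm_mul, Complex.norm_real, Complex.norm_real,
        Real.norm_of_nonneg (ha.nonneg τ), Real.norm_of_nonneg (hb.nonneg _), mul_comm C]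
      exact mul_le_mul_of_nonneg_left (hC τ) (mul_nonneg (ha.nonneg τ) (hb.nonneg _))
    · filter_upwards [hb.sum_eq] with τ hτ
      exact ((hτ.mul_left (a τ)).mul_left C).summable
    · refine (ha.integrable.const_mul (C * 2)).congr ?_
      filter_upwards [hb.sum_eq] with τ hτ
      rw [((hτ.mul_left (a τ)).mul_left C).tsum_eq]
      ring
    · filter_upwards [hb.sum_eq] with τ hτ
      have := ((Complex.hasSum_ofReal.mpr (hτ.mul_left (a τ))).mul_right (F τ))
      simpa [mul_assoc, mul_left_comm] using this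
  have h1 := key hφ hψ
  have h2 := key hψ hφ
  have hterm : ∀ γ : Γ, ∫ τ, ((φ τ : ℂ) * (ψ ((γ : SL(2, ℤ)) • τ) : ℂ)) * F τ =
      ∫ τ, ((ψ τ : ℂ) * (φ (((γ⁻¹ : Γ) : SL(2, ℤ)) • τ) : ℂ)) * F τ := by
    intro γ
    rw [← integral_comp_SL (γ : SL(2, ℤ))
      (fun σ => ((ψ σ : ℂ) * (φ (((γ⁻¹ : Γ) : SL(2, ℤ)) • σ) : ℂ)) * F σ)]
    refine integral_congr_ae (Filter.Eventually.of_forall fun τ => ?_)
    simp only [Subgroup.coe_inv, inv_smul_smul, hinv _ γ.2]
    ring
  have h3 := (Equiv.inv Γ).hasSum_iff.mpr h2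
  have : (fun γ : Γ => ∫ τ, ((φ τ : ℂ) * (ψ ((γ : SL(2, ℤ)) • τ) : ℂ)) * F τ) =
      (fun γ : Γ => ∫ τ, ((ψ τ : ℂ) * (φ ((γ : SL(2, ℤ)) • τ) : ℂ)) * F τ) ∘ Equiv.inv Γ :=
    funext fun γ => by simpa using hterm γ
  rw [this] at h1
  have := h1.unique h3
  simpa [integral_const_mul] using this

/-! ### The mean -/

/-- The integral over `fdo` of the average of the translates of `F`. -/
def avg [Γ.FiniteIndex] (F : ℍ → ℂ) : ℂ :=
  (∫ τ, (dom Γ τ : ℂ) * F τ) / Γ.index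

theorem avg_congr_le {Γ' : Subgroup SL(2, ℤ)} [Γ.FiniteIndex] [Γ'.FiniteIndex] (h : Γ' ≤ Γ)
    {F : ℍ → ℂ} (hF : Continuous F) {C : ℝ} (hC : ∀ τ, ‖F τ‖ ≤ C)
    (hinv : ∀ γ ∈ Γ, ∀ τ, F (γ • τ) = F τ) : avg Γ' F = avg Γ F := by
  let := Fintype.ofFinite (SL(2, ℤ) ⧸ Γ)
  let := Fintype.ofFinite (SL(2, ℤ) ⧸ Γ')
  have hfin : Finite (Γ ⧸ Γ'.subgroupOf Γ) := by
    have : Finite ((SL(2, ℤ) ⧸ Γ) × (Γ ⧸ Γ'.subgroupOf Γ)) :=
      Finite.of_equiv _ (Subgroup.quotientEquivProdOfLE h)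
    exact Finite.prod_right (SL(2, ℤ) ⧸ Γ)
  let := Fintype.ofFinite (Γ ⧸ Γ'.subgroupOf Γ)
  set J : SL(2, ℤ) ⧸ Γ → ℂ := fun q => ∫ τ, (fdInd τ : ℂ) * F (q.out⁻¹ • τ) with hJ
  have hwd : ∀ (x : SL(2, ℤ)), ∀ τ, F (x⁻¹ • τ) = F ((x : SL(2, ℤ) ⧸ Γ).out⁻¹ • τ) := by
    intro x τ
    obtain ⟨γ, hγ⟩ := QuotientGroup.mk_out_eq_mul Γ x
    rw [hγ, mul_inv_rev, mul_smul, hinv _ (inv_mem γ.2)]
  have hterm : ∀ q : SL(2, ℤ) ⧸ Γ', (∫ τ, (fdInd τ : ℂ) * F (q.out⁻¹ • τ)) =
      J ((Subgroup.quotientEquivProdOfLE h q).1) := by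
    intro q
    have : (Subgroup.quotientEquivProdOfLE h q).1 = (q.out : SL(2, ℤ) ⧸ Γ) := by
      conv_lhs => rw [← q.out_eq']
      rfl
    rw [this, hJ]
    exact integral_congr_ae (Filter.Eventually.of_forall fun τ => by simp only [hwd q.out τ])
  rw [avg, avg, integral_dom_mul Γ hF hC, integral_dom_mul Γ' hF hC,
    Finset.sum_congr rfl fun q _ => hterm q,
    Equiv.sum_comp (Subgroup.quotientEquivProdOfLE h) fun p => J p.1, Fintype.sum_prod_type]
  simp only [Finset.sum_const, Finset.card_univ, nsmul_eq_mul, ← Finset.mul_sum]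
  have hidx : Γ'.index = Fintype.card (Γ ⧸ Γ'.subgroupOf Γ) * Γ.index := by
    rw [← Subgroup.relIndex_mul_index h, Subgroup.relIndex, Subgroup.index_eq_card
      (Γ'.subgroupOf Γ), Nat.card_eq_fintype_card]
  have h0 : (Fintype.card (Γ ⧸ Γ'.subgroupOf Γ) : ℂ) ≠ 0 :=
    Nat.cast_ne_zero.mpr Fintype.card_ne_zero
  rw [hidx, Nat.cast_mul, mul_div_mul_left _ _ h0]

theorem integral_fdInd_pos : 0 < ∫ τ, fdInd τ := by
  rw [fdInd, integral_indicator_const _ isOpen_fdo.measurableSet, smul_eq_mul, mul_one]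
  refine ENNReal.toReal_pos (volume_pos_of_isOpen isOpen_fdo ?_).ne' volume_fdo_lt_top.ne
  exact ⟨⟨⟨0, 2⟩, by norm_num⟩, by
    constructor <;> norm_num [Complex.normSq_apply]⟩

theorem avg_one [Γ.FiniteIndex] : avg Γ (fun _ => 1) = ((∫ τ, fdInd τ : ℝ) : ℂ) := by
  let := Fintype.ofFinite (SL(2, ℤ) ⧸ Γ)
  rw [avg, integral_dom_mul Γ continuous_const (C := 1) (fun _ => by simp)]
  simp only [mul_one, Finset.sum_const, Finset.card_univ, nsmul_eq_mul, integral_complex_ofReal]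
  rw [← Nat.card_eq_fintype_card, ← Subgroup.index_eq_card,
    mul_div_cancel_left₀ _ (Nat.cast_ne_zero.mpr Subgroup.FiniteIndex.index_ne_zero)]

/-- The mean is unchanged by composing with a matrix conjugating `Γ` onto `Γ'`. -/
theorem avg_comp_smul (Γ' : Subgroup SL(2, ℤ)) [Γ.FiniteIndex] [Γ'.FiniteIndex]
    (α : GL (Fin 2) ℝ) (e : Γ ≃ Γ')
    (he : ∀ (γ : Γ) (τ : ℍ), α • ((γ : SL(2, ℤ)) • τ) = ((e γ : SL(2, ℤ))) • (α • τ))
    {F : ℍ → ℂ} (hF : Continuous F) {C : ℝ} (hC : ∀ τ, ‖F τ‖ ≤ C)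
    (hinv : ∀ γ ∈ Γ', ∀ τ, F (γ • τ) = F τ) :
    avg Γ (fun τ => F (α • τ)) = avg Γ' F := by
  have hd : IsDom Γ' fun τ => dom Γ (α⁻¹ • τ) := by
    have hD := isDom_dom Γ
    generalize dom Γ = φ at hD ⊢
    refine ⟨?_, fun τ => hD.nonneg _, ?_, ?_⟩
    · exact hD.meas.comp (measurableEmbedding_GL α⁻¹).measurable
    · exact (measurePreserving_GL α⁻¹).integrable_comp_of_integrable hD.integrable
    · have hae := (measurePreserving_GL α⁻¹).quasiMeasurePreserving.ae hD.sum_eq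
      filter_upwards [hae] with τ hτ
      rw [← e.hasSum_iff]
      refine hτ.congr_fun ?_
      intro γ
      have := he γ (α⁻¹ • τ)
      rw [smul_inv_smul] at this
      simp only [Function.comp_apply, ← this, inv_smul_smul]
  have hcov : ∀ G : ℍ → ℂ, ∫ τ, (dom Γ τ : ℂ) * G (α • τ) =
      ∫ τ, (dom Γ (α⁻¹ • τ) : ℂ) * G τ := fun G => by
    rw [← (measurePreserving_GL α).integral_comp (measurableEmbedding_GL α)
      (fun τ => (dom Γ (α⁻¹ • τ) : ℂ) * G τ)]
    simp only [inv_smul_smul]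
  have hidx : (Γ.index : ℂ) = Γ'.index := by
    have h := hcov fun _ => 1
    rw [hd.integral_eq Γ' (isDom_dom Γ') continuous_const (C := 1) (fun _ => by simp)
      (fun _ _ _ => rfl)] at h
    have a := avg_one Γ
    have b := avg_one Γ'
    rw [avg, div_eq_iff (Nat.cast_ne_zero.mpr Subgroup.FiniteIndex.index_ne_zero)] at a b
    rw [a, b] at h
    exact mul_left_cancel₀ (Complex.ofReal_ne_zero.mpr integral_fdInd_pos.ne') h
  rw [avg, avg, hcov, hd.integral_eq Γ' (isDom_dom Γ') hF hC hinv, hidx]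

end Fermat.Agent.Petersson

end
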