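import Fermat.Agent.Petersson.Domain

/-!
# The weight two Petersson pairing

`ip Γ f g` is the mean of the Petersson integrand; it is positive definite on holomorphic
`Γ`-invariant functions with `‖f τ‖ Im τ` bounded (e.g. cusp forms).
-/

set_option autoImplicit false

noncomputable section

open MeasureTheory UpperHalfPlane ModularGroup
open scoped MatrixGroups ModularForm Manifold ComplexConjugate

namespace Fermat.Agent.Petersson

/-- Holomorphic with `‖f τ‖ · Im τ` bounded. -/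
structure Bd (f : ℍ → ℂ) : Prop where
  holo : MDiff f
  bound : ∃ C, ∀ τ, ‖f τ‖ * τ.im ≤ C

/-- Invariance under the weight two action of a subgroup of `SL₂(ℤ)`. -/
def Inv (Γ : Subgroup SL(2, ℤ)) (f : ℍ → ℂ) : Prop := ∀ γ ∈ Γ, f ∣[(2 : ℤ)] γ = f

theorem Inv.mono {Γ Γ' : Subgroup SL(2, ℤ)} {f : ℍ → ℂ} (h : Inv Γ f) (hle : Γ' ≤ Γ) :
    Inv Γ' f := fun γ hγ => h γ (hle hγ)

theorem norm_petersson (f g : ℍ → ℂ) (τ : ℍ) :
    ‖petersson 2 f g τ‖ = (‖f τ‖ * τ.im) * (‖g τ‖ * τ.im) := by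
  simp only [petersson, norm_mul, Complex.norm_conj, Complex.norm_real,
    Real.norm_of_nonneg τ.im_pos.le, zpow_ofNat, norm_pow]
  ring

theorem petersson_slash_two {g : GL (Fin 2) ℝ} (hg : 0 < g.det.val) (f f' : ℍ → ℂ) (τ : ℍ) :
    petersson 2 (f ∣[(2 : ℤ)] g) (f' ∣[(2 : ℤ)] g) τ = petersson 2 f f' (g • τ) := by
  rw [petersson_slash, σ, if_pos hg]
  simp

theorem petersson_slash_left {g : GL (Fin 2) ℝ} (hg : 0 < g.det.val) (f f' : ℍ → ℂ) (τ : ℍ) :
    petersson 2 (f ∣[(2 : ℤ)] g) f' τ = petersson 2 f (f' ∣[(2 : ℤ)] g⁻¹) (g • τ) := by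
  rw [← petersson_slash_two hg, ← SlashAction.slash_mul, inv_mul_cancel, SlashAction.slash_one]

theorem petersson_conj_symm (f g : ℍ → ℂ) (τ : ℍ) :
    petersson 2 g f τ = conj (petersson 2 f g τ) := petersson_symm 2 f g τ

theorem Bd.slash {f : ℍ → ℂ} (h : Bd f) {g : GL (Fin 2) ℝ} (hg : 0 < g.det.val) :
    Bd (f ∣[(2 : ℤ)] g) := by
  obtain ⟨C, hC⟩ := h.bound
  refine ⟨h.holo.slash 2 g, C, fun τ => ?_⟩
  have e := congrArg (‖·‖) (petersson_slash_two hg f f τ)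
  simp only [norm_petersson, ← pow_two] at e
  rw [pow_left_inj₀ (mul_nonneg (norm_nonneg _) τ.im_pos.le)
    (mul_nonneg (norm_nonneg _) (g • τ).im_pos.le) two_ne_zero] at e
  exact e ▸ hC _

theorem Bd.slash_SL {f : ℍ → ℂ} (h : Bd f) (γ : SL(2, ℤ)) : Bd (f ∣[(2 : ℤ)] γ) :=
  h.slash (g := (γ : GL (Fin 2) ℝ)) (by simp)

theorem Bd.zero : Bd (0 : ℍ → ℂ) := ⟨mdifferentiable_const, 0, fun τ => by simp⟩

theorem Bd.add {f g : ℍ → ℂ} (hf : Bd f) (hg : Bd g) : Bd (f + g) := by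
  obtain ⟨C, hC⟩ := hf.bound
  obtain ⟨D, hD⟩ := hg.bound
  refine ⟨hf.holo.add hg.holo, C + D, fun τ => ?_⟩
  calc ‖f τ + g τ‖ * τ.im ≤ (‖f τ‖ + ‖g τ‖) * τ.im :=
        mul_le_mul_of_nonneg_right (norm_add_le _ _) τ.im_pos.le
    _ ≤ C + D := by rw [add_mul]; exact add_le_add (hC τ) (hD τ)

theorem Bd.smul {f : ℍ → ℂ} (hf : Bd f) (c : ℂ) : Bd (c • f) := by
  obtain ⟨C, hC⟩ := hf.bound
  refine ⟨hf.holo.const_smul c, ‖c‖ * C, fun τ => ?_⟩
  rw [Pi.smul_apply, smul_eq_mul, norm_mul, mul_assoc]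
  exact mul_le_mul_of_nonneg_left (hC τ) (norm_nonneg c)

theorem Bd.sum {ι : Type*} (s : Finset ι) {f : ι → ℍ → ℂ} (h : ∀ i ∈ s, Bd (f i)) :
    Bd (∑ i ∈ s, f i) :=
  Finset.sum_induction f Bd (fun _ _ => Bd.add) Bd.zero h

theorem bd_cuspForm {Γ : Subgroup (GL (Fin 2) ℝ)} [Γ.IsArithmetic] {F : Type*} [FunLike F ℍ ℂ]
    [CuspFormClass F Γ 2] (f : F) : Bd (f : ℍ → ℂ) := by
  obtain ⟨C, hC⟩ := CuspFormClass.petersson_bounded_left 2 Γ f f
  refine ⟨CuspFormClass.holo f, Real.sqrt C, fun τ => ?_⟩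
  refine Real.le_sqrt_of_sq_le ?_
  have := hC τ
  rwa [norm_petersson, ← pow_two] at this

theorem Bd.continuous_petersson {f g : ℍ → ℂ} (hf : Bd f) (hg : Bd g) :
    Continuous (petersson 2 f g) :=
  petersson_continuous 2 hf.holo.continuous hg.holo.continuous

theorem Bd.exists_petersson_le {f g : ℍ → ℂ} (hf : Bd f) (hg : Bd g) :
    ∃ C, ∀ τ, ‖petersson 2 f g τ‖ ≤ C := by
  obtain ⟨C, hC⟩ := hf.bound
  obtain ⟨D, hD⟩ := hg.bound
  refine ⟨C * D, fun τ => ?_⟩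
  rw [norm_petersson]
  exact mul_le_mul (hC τ) (hD τ) (mul_nonneg (norm_nonneg _) τ.im_pos.le)
    ((mul_nonneg (norm_nonneg _) τ.im_pos.le).trans (hC τ))

theorem petersson_invariant {Γ : Subgroup SL(2, ℤ)} {f g : ℍ → ℂ} (hf : Inv Γ f) (hg : Inv Γ g) :
    ∀ γ ∈ Γ, ∀ τ, petersson 2 f g (γ • τ) = petersson 2 f g τ := fun γ hγ τ => by
  rw [← petersson_slash_SL, hf γ hγ, hg γ hγ]

variable {Γ : Subgroup SL(2, ℤ)} [Γ.FiniteIndex]

/-- The weight two Petersson pairing, normalised by the index. -/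
def ip (Γ : Subgroup SL(2, ℤ)) [Γ.FiniteIndex] (f g : ℍ → ℂ) : ℂ := avg Γ (petersson 2 f g)

theorem integrable_dom_mul {F : ℍ → ℂ} (hF : Continuous F) {C : ℝ} (hC : ∀ τ, ‖F τ‖ ≤ C) :
    Integrable fun τ => (dom Γ τ : ℂ) * F τ :=
  (isDom_dom Γ).integrable.ofReal.mul_bdd hF.aestronglyMeasurable (Filter.Eventually.of_forall hC)

theorem integrable_ip {f g : ℍ → ℂ} (hf : Bd f) (hg : Bd g) :
    Integrable fun τ => (dom Γ τ : ℂ) * petersson 2 f g τ := by
  obtain ⟨C, hC⟩ := hf.exists_petersson_le hg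
  exact integrable_dom_mul (hf.continuous_petersson hg) hC

theorem ip_conj_symm (f g : ℍ → ℂ) : ip Γ g f = conj (ip Γ f g) := by
  simp only [ip, avg, map_div₀, map_natCast, ← integral_conj]
  congr 1
  refine integral_congr_ae (Filter.Eventually.of_forall fun τ => ?_)
  simp [petersson_conj_symm f g τ]

theorem ip_add_right {f g g' : ℍ → ℂ} (hf : Bd f) (hg : Bd g) (hg' : Bd g') :
    ip Γ f (g + g') = ip Γ f g + ip Γ f g' := by
  simp only [ip, avg, ← add_div, ← integral_add (integrable_ip hf hg) (integrable_ip hf hg')]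
  congr 1
  refine integral_congr_ae (Filter.Eventually.of_forall fun τ => ?_)
  simp [petersson]
  ring

theorem ip_add_left {f f' g : ℍ → ℂ} (hf : Bd f) (hf' : Bd f') (hg : Bd g) :
    ip Γ (f + f') g = ip Γ f g + ip Γ f' g := by
  rw [ip_conj_symm g, ip_add_right hg hf hf', map_add, ← ip_conj_symm, ← ip_conj_symm]

theorem ip_smul_right (c : ℂ) (f g : ℍ → ℂ) : ip Γ f (c • g) = c * ip Γ f g := by
  simp only [ip, avg, ← mul_div_assoc, ← integral_const_mul]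
  congr 1
  refine integral_congr_ae (Filter.Eventually.of_forall fun τ => ?_)
  simp [petersson]
  ring

theorem ip_smul_left (c : ℂ) (f g : ℍ → ℂ) : ip Γ (c • f) g = conj c * ip Γ f g := by
  rw [ip_conj_symm g, ip_smul_right, map_mul, ← ip_conj_symm]

theorem ip_zero_left (g : ℍ → ℂ) : ip Γ (0 : ℍ → ℂ) g = 0 := by
  simpa using ip_smul_left (Γ := Γ) 0 0 g

theorem ip_sum_left {ι : Type*} (s : Finset ι) {f : ι → ℍ → ℂ} {g : ℍ → ℂ}
    (hf : ∀ i ∈ s, Bd (f i)) (hg : Bd g) : ip Γ (∑ i ∈ s, f i) g = ∑ i ∈ s, ip Γ (f i) g := by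
  classical
  induction s using Finset.induction_on with
  | empty => simp [ip_zero_left]
  | insert a s ha ih =>
    rw [Finset.sum_insert ha, Finset.sum_insert ha, ip_add_left (hf a (Finset.mem_insert_self a s))
      (Bd.sum s fun i hi => hf i (Finset.mem_insert_of_mem hi)) hg,
      ih fun i hi => hf i (Finset.mem_insert_of_mem hi)]

theorem ip_sum_right {ι : Type*} (s : Finset ι) {f : ι → ℍ → ℂ} {g : ℍ → ℂ}
    (hf : ∀ i ∈ s, Bd (f i)) (hg : Bd g) : ip Γ g (∑ i ∈ s, f i) = ∑ i ∈ s, ip Γ g (f i) := by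
  rw [ip_conj_symm, ip_sum_left s hf hg, map_sum]
  exact Finset.sum_congr rfl fun i _ => (ip_conj_symm _ _).symm

theorem ip_eq_of_le {Γ' : Subgroup SL(2, ℤ)} [Γ'.FiniteIndex] (h : Γ' ≤ Γ) {f g : ℍ → ℂ}
    (hf : Bd f) (hg : Bd g) (hfi : Inv Γ f) (hgi : Inv Γ g) : ip Γ' f g = ip Γ f g := by
  obtain ⟨C, hC⟩ := hf.exists_petersson_le hg
  exact avg_congr_le Γ h (hf.continuous_petersson hg) hC (petersson_invariant hfi hgi)

/-- **Positive definiteness.** A bounded invariant holomorphic function of norm zero vanishes. -/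
theorem ip_self_eq_zero {f : ℍ → ℂ} (hf : Bd f) (h0 : ip Γ f f = 0) : f = 0 := by
  let := Fintype.ofFinite (SL(2, ℤ) ⧸ Γ)
  obtain ⟨C, hC⟩ := hf.exists_petersson_le hf
  have hreal : ∀ τ, petersson 2 f f τ = (((‖f τ‖ * τ.im) ^ 2 : ℝ) : ℂ) := fun τ => by
    simp [petersson, Complex.conj_mul', pow_two]
    ring
  set W : SL(2, ℤ) ⧸ Γ → ℍ → ℝ := fun q τ =>
    fdInd τ * (‖f (q.out⁻¹ • τ)‖ * (q.out⁻¹ • τ).im) ^ 2 with hW
  have hWnn : ∀ q τ, 0 ≤ W q τ := fun q τ => mul_nonneg (fdInd_nonneg τ) (sq_nonneg _)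
  have hsum : ∑ q, ∫ τ, W q τ = 0 := by
    rw [ip, avg, div_eq_zero_iff, integral_dom_mul Γ (hf.continuous_petersson hf) hC] at h0
    rcases h0 with h0 | h0
    · rw [← Complex.ofReal_inj, Complex.ofReal_sum, Complex.ofReal_zero, ← h0]
      refine Finset.sum_congr rfl fun q _ => ?_
      rw [← integral_complex_ofReal]
      refine integral_congr_ae (Filter.Eventually.of_forall fun τ => ?_)
      simp [hW, hreal]
    · exact absurd h0 (Nat.cast_ne_zero.mpr Subgroup.FiniteIndex.index_ne_zero)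
  have hq := (Finset.sum_eq_zero_iff_of_nonneg fun q _ => integral_nonneg (hWnn q)).mp hsum
    ((1 : SL(2, ℤ)) : SL(2, ℤ) ⧸ Γ) (Finset.mem_univ _)
  set u : SL(2, ℤ) := (((1 : SL(2, ℤ)) : SL(2, ℤ) ⧸ Γ).out)⁻¹ with hu
  have hucont : Continuous fun τ : ℍ => u • τ := continuous_const_smul (u : GL (Fin 2) ℝ)
  have hcont : Continuous fun τ => (‖f (u • τ)‖ * (u • τ).im) ^ 2 :=
    (((hf.holo.continuous.comp hucont).norm).mul (UpperHalfPlane.continuous_im.comp hucont)).pow 2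
  have hWint : Integrable (W ((1 : SL(2, ℤ)) : SL(2, ℤ) ⧸ Γ)) := by
    refine integrable_fdInd.mul_bdd hcont.aestronglyMeasurable
      (c := C) (Filter.Eventually.of_forall fun τ => ?_)
    have := hC (u • τ)
    rw [norm_petersson, ← pow_two] at this
    rwa [Real.norm_of_nonneg (sq_nonneg _)]
  have hae := (integral_eq_zero_iff_of_nonneg (hWnn _) hWint).mp hq
  -- `f` vanishes on a nonempty part of `u • fdo`
  set U : Set ℍ := fdo ∩ {τ | f (u • τ) ≠ 0} with hU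
  have hUopen : IsOpen U := isOpen_fdo.inter ((hf.holo.continuous.comp hucont).isOpen_preimage _
    isOpen_ne)
  have hUnull : (volume : Measure ℍ) U = 0 := by
    refine measure_mono_null (fun τ hτ => ?_) (ae_iff.mp hae)
    simp only [Set.mem_ofPred_eq, Pi.zero_apply, hW, fdInd, Set.indicator_of_mem hτ.1, one_mul]
    exact pow_ne_zero 2 (mul_ne_zero (norm_ne_zero_iff.mpr hτ.2) (u • τ).im_ne_zero)
  have hU0 : U = ∅ := by
    by_contra hne
    exact (volume_pos_of_isOpen hUopen (Set.nonempty_iff_ne_empty.mpr hne)).ne' hUnull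
  set V : Set ℍ := (fun τ : ℍ => u⁻¹ • τ) ⁻¹' fdo with hV
  have hVopen : IsOpen V :=
    isOpen_fdo.preimage (continuous_const_smul ((u⁻¹ : SL(2, ℤ)) : GL (Fin 2) ℝ))
  have hf0 : ∀ τ ∈ V, f τ = 0 := fun τ hτ => by
    by_contra hne
    refine (Set.eq_empty_iff_forall_notMem.mp hU0) (u⁻¹ • τ) ⟨hτ, ?_⟩
    simpa using hne
  obtain ⟨τ₀, hτ₀⟩ : V.Nonempty := by
    refine ⟨u • (⟨⟨0, 2⟩, by norm_num⟩ : ℍ), ?_⟩
    rw [hV, Set.mem_preimage, inv_smul_smul]
    constructor <;> norm_num [Complex.normSq_apply]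
  have han : AnalyticOnNhd ℂ (f ∘ ofComplex) upperHalfPlaneSet :=
    (UpperHalfPlane.mdifferentiable_iff.mp hf.holo).analyticOnNhd isOpen_upperHalfPlaneSet
  have hev : (f ∘ ofComplex) =ᶠ[nhds (τ₀ : ℂ)] 0 := by
    filter_upwards [(isOpenEmbedding_coe.isOpenMap V hVopen).mem_nhds ⟨τ₀, hτ₀, rfl⟩] with z hz
    obtain ⟨τ, hτ, rfl⟩ := hz
    simp [hf0 τ hτ]
  funext τ
  have := han.eqOn_zero_of_preconnected_of_eventuallyEq_zero
    (convex_halfSpace_im_gt 0).isPreconnected τ₀.im_pos hev (x := (τ : ℂ)) τ.im_pos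
  simpa using this

end Fermat.Agent.Petersson

end
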